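import Fermat.Agent.S59.TW.Aut.Spec
import Fermat.Agent.S30.H709.ParEigen

/-!
# Row S59 / row 37, cell TW, layer 3 (AUT): leaf NONTRIV (helper581)

`nontriv : TW.Aut.NontrivStatement`: the localisation `V₀` of `X_{Γ₀(N₀)}(𝒪)` at the maximal ideal
of the minimal package is nonzero.

Route (no new Eichler–Shimura input): the Hecke algebra acts faithfully on the period lattice
(`S30.H709.perRho`, `perRho_injective`), so the residual character `θ` of the package has nonzero
eigen-coefficients `w` on a `ℤ`-basis of the lattice (`S30.H709.exists_eigen_coeffs`, with values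
in the residue field).  Lifting the coefficients to `𝒪` gives a class `x = ũ ∘ perCls` in
`X_{Γ₀(N₀)}(𝒪)` which is not in `𝔪_𝒪 X` and is an eigenvector modulo `𝔪_𝒪 X` for all `T_ℓ` with
the eigenvalues of `θ`.  The fullness clause of `IsLocPart` then gives `e x ≠ 0`.
-/

set_option autoImplicit false

open Polynomial IsLocalRing CongruenceSubgroup
open scoped MatrixGroups

namespace Fermat.Agent.S59.TW.Aut.H581

open Fermat.Agent.S59.Arch Fermat.Agent.S59.TW.H959 Fermat.Agent.S59.TW.H653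
open Fermat.Agent.S59.TW.Aut

/-! ## `𝔪_𝒪 · X_K(𝒪)` elementwise -/

section MX

variable {K : Subgroup SL(2, ℤ)} {𝒪 : Type} [CommRing 𝒪]

/-- An element of `𝔪_𝒪 · X_K(𝒪)` has all its values in `𝔪_𝒪`. -/
theorem h581_apply_mem_of_mem_mX [IsLocalRing 𝒪] {y : Additive K →+ 𝒪} (hy : y ∈ mX K 𝒪) (γ : Additive K) :
    y γ ∈ maximalIdeal 𝒪 := by
  unfold mX at hy
  refine Submodule.smul_induction_on hy ?_ ?_
  · intro r hr n _
    rw [AddMonoidHom.smul_apply, smul_eq_mul]
    exact Ideal.mul_mem_right _ _ hr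
  · intro a b ha hb
    rw [AddMonoidHom.add_apply]
    exact Ideal.add_mem _ ha hb

/-- A class with all its values in `𝔪_𝒪` lies in `𝔪_𝒪 · X_K(𝒪)` (`𝒪` a discrete valuation
ring). -/
theorem h581_mem_mX_of_forall_mem [IsDomain 𝒪] [IsDiscreteValuationRing 𝒪]
    (y : Additive K →+ 𝒪) (h : ∀ γ, y γ ∈ maximalIdeal 𝒪) : y ∈ mX K 𝒪 := by
  obtain ⟨ϖ, hϖ⟩ := IsDiscreteValuationRing.exists_irreducible 𝒪
  have hm : maximalIdeal 𝒪 = Ideal.span {ϖ} := hϖ.maximalIdeal_eq
  have hϖ0 : ϖ ≠ 0 := hϖ.ne_zero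
  have hex : ∀ γ, ∃ z, y γ = ϖ * z := fun γ => by
    have h1 := h γ
    rw [hm, Ideal.mem_span_singleton'] at h1
    obtain ⟨a, ha⟩ := h1
    exact ⟨a, by rw [← ha, mul_comm]⟩
  choose z hz using hex
  let zh : Additive K →+ 𝒪 :=
    { toFun := z
      map_zero' := by
        have h1 := hz 0
        rw [map_zero] at h1
        exact (mul_eq_zero.mp h1.symm).resolve_left hϖ0
      map_add' := fun a b => by
        have h1 := hz (a + b)
        rw [map_add, hz a, hz b, ← mul_add] at h1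
        exact (mul_left_cancel₀ hϖ0 h1).symm }
  have hy : y = ϖ • zh := by
    refine AddMonoidHom.ext fun γ => ?_
    rw [AddMonoidHom.smul_apply, smul_eq_mul]
    exact hz γ
  rw [hy]
  unfold mX
  exact Submodule.smul_mem_smul (by rw [hm]; exact Ideal.mem_span_singleton_self ϖ)
    Submodule.mem_top

end MX

/-! ## The primes of the minimal level lie in `Smin` -/

theorem h581_mem_of_dvd_wilesLevel {p : ℕ} {t : PType} {Smin : Finset ℕ}
    (hp : p ∈ Smin) (hS : ∀ q ∈ Smin, q.Prime) {q : ℕ} (hq : q.Prime)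
    (hdvd : q ∣ wilesLevel p t Smin Smin) : q ∈ (↑Smin : Set ℕ) := by
  unfold wilesLevel at hdvd
  rw [Finset.sdiff_self, Finset.prod_empty, mul_one] at hdvd
  rcases (Nat.Prime.dvd_mul hq).mp hdvd with h | h
  · obtain ⟨a, ha, hqa⟩ := (Prime.dvd_finsetProd_iff hq.prime _).mp h
    have ha' : a ∈ Smin := Finset.mem_of_mem_erase ha
    have : q = a := (Nat.prime_dvd_prime_iff_eq hq (hS a ha')).mp hqa
    rw [this]
    exact ha'
  · cases t with
    | flat => exact absurd (Nat.dvd_one.mp h) hq.one_lt.ne'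
    | sord =>
      have hpp : p.Prime := hS p hp
      have : q = p := (Nat.prime_dvd_prime_iff_eq hq hpp).mp h
      rw [this]
      exact hp
    | ord =>
      have hpp : p.Prime := hS p hp
      have : q = p := (Nat.prime_dvd_prime_iff_eq hq hpp).mp h
      rw [this]
      exact hp

/-! ## Occurrence of a residual character in `X_{Γ₀(N)}(𝒪)` -/

section Occ

open Fermat.Agent.S30.H709 Fermat.Agent.S29

variable {N : ℕ} [NeZero N]

omit [NeZero N] in
/-- The two transfer elements (helper201's `trf`, helper642's `hElt`) agree. -/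
theorem h581_hElt_eq_trf {ℓ : ℕ} [Fact ℓ.Prime] (hℓN : ¬ ℓ ∣ N) (γ : Gamma0 N)
    (x : OnePoint (ZMod ℓ)) : H642.hElt hℓN γ x = H201.trf hℓN γ x :=
  H201.trf_unique hℓN γ _ x (H642.hElt_spec hℓN γ x)

/-- **Occurrence.**  Every character `θ` of the Hecke algebra (away from `S ⊇ primes(N)`) with
values in the residue field of a discrete valuation ring `𝒪` occurs in
`X_{Γ₀(N)}(𝒪) / 𝔪_𝒪`: there is a class `x ∉ 𝔪_𝒪 X` with `T_ℓ x - c x ∈ 𝔪_𝒪 X` for every good prime
`ℓ` and every lift `c` of `θ(T_ℓ)`. -/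
theorem h581_exists_occ {S : Set ℕ} (hNS : ∀ q : ℕ, q.Prime → q ∣ N → q ∈ S)
    {𝒪 : Type} [CommRing 𝒪] [IsDomain 𝒪] [IsDiscreteValuationRing 𝒪]
    (θ : CuspForm.heckeAlgebra N 2 S →+* ResidueField 𝒪) :
    ∃ x : Additive (Gamma0 N) →+ 𝒪, x ∉ mX (Gamma0 N) 𝒪 ∧
      ∀ (ℓ : ℕ) [Fact ℓ.Prime] (hℓN : ¬ ℓ ∣ N) (hℓS : ℓ ∉ S) (c : 𝒪),
        residue 𝒪 c = θ (CuspForm.heckeAlgebra.T (Fact.out : ℓ.Prime) hℓN hℓS) →
        H642.heckeTransfer hℓN x - c • x ∈ mX (Gamma0 N) 𝒪 := by
  classical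
  have hPH := periodHecke_facCoh N
  let b := Module.finBasis ℤ (perLattice N)
  obtain ⟨w, hw0, hw⟩ := exists_eigen_coeffs (perRho hPH hNS) (perRho_injective hPH hNS) b θ
  -- lift the coefficients
  have hlift : ∀ j, ∃ a : 𝒪, residue 𝒪 a = w j := fun j => residue_surjective (w j)
  choose wt hwt using hlift
  -- the functional on the period lattice
  let u : perLattice N →+ 𝒪 :=
    { toFun := fun y => ∑ j, wt j * ((b.repr y j : ℤ) : 𝒪)
      map_zero' := by simp
      map_add' := fun y z => by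
        simp only [map_add, Finsupp.coe_add, Pi.add_apply, Int.cast_add, mul_add,
          Finset.sum_add_distrib] }
  have hu : ∀ y, u y = ∑ j, wt j * ((b.repr y j : ℤ) : 𝒪) := fun _ => rfl
  -- its reduction
  let ub : perLattice N →+ ResidueField 𝒪 := (residue 𝒪 : 𝒪 →+* ResidueField 𝒪).toAddMonoidHom.comp u
  have hub_apply : ∀ y, ub y = ∑ j, w j * ((b.repr y j : ℤ) : ResidueField 𝒪) := by
    intro y
    show residue 𝒪 (u y) = _
    rw [hu, map_sum]
    refine Finset.sum_congr rfl fun j _ => ?_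
    rw [map_mul, hwt, map_intCast]
  have hub : ∀ k, ub (b k) = w k := by
    intro k
    rw [hub_apply, Finset.sum_eq_single k]
    · rw [Module.Basis.repr_self, Finsupp.single_eq_same, Int.cast_one, mul_one]
    · intro j _ hj
      rw [Module.Basis.repr_self, Finsupp.single_eq_of_ne hj, Int.cast_zero, mul_zero]
    · intro h
      exact absurd (Finset.mem_univ k) h
  have hsemi : ∀ (t : CuspForm.heckeAlgebra N 2 S) (y : perLattice N),
      ub (perRho hPH hNS t y) = θ t * ub y := by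
    intro t y
    conv_lhs => rw [← b.sum_repr y]
    conv_rhs => rw [← b.sum_repr y]
    rw [map_sum, map_sum, map_sum, Finset.mul_sum]
    refine Finset.sum_congr rfl fun k _ => ?_
    rw [map_zsmul, map_zsmul, map_zsmul, hub, zsmul_eq_mul, zsmul_eq_mul, hub_apply, hw t k]
    ring
  -- the class
  let x : Additive (Gamma0 N) →+ 𝒪 :=
    { toFun := fun γ => u (perCls N (Additive.toMul γ))
      map_zero' := by rw [toMul_zero, perCls_one, map_zero]
      map_add' := fun γ δ => by rw [toMul_add, perCls_mul, map_add] }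
  have hx : ∀ γ : Gamma0 N, x (Additive.ofMul γ) = u (perCls N γ) := fun _ => rfl
  refine ⟨x, ?_, ?_⟩
  · -- `x ∉ 𝔪 X`
    intro hmem
    apply hw0
    have hvan : ∀ y : perLattice N, ub y = 0 := by
      intro y
      induction y using perCls_induction with
      | h0 => exact map_zero ub
      | hadd y z hy hz => rw [map_add, hy, hz, add_zero]
      | hneg y hy => rw [map_neg, hy, neg_zero]
      | hcls γ =>
        show residue 𝒪 (u (perCls N γ)) = 0
        rw [← hx, residue_eq_zero_iff]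
        exact h581_apply_mem_of_mem_mX hmem _
    funext k
    rw [← hub k, hvan]
    rfl
  · -- eigenvector modulo `𝔪 X`
    intro ℓ _ hℓN hℓS c hc
    apply h581_mem_mX_of_forall_mem
    intro γ
    obtain ⟨γ, rfl⟩ : ∃ γ' : Gamma0 N, Additive.ofMul γ' = γ := ⟨Additive.toMul γ, rfl⟩
    rw [AddMonoidHom.sub_apply, AddMonoidHom.smul_apply, smul_eq_mul, H642.heckeTransfer_apply,
      ← residue_eq_zero_iff, map_sub, map_mul, hc]
    have h1 : ∑ pt : OnePoint (ZMod ℓ), x (Additive.ofMul (H642.hElt hℓN γ pt))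
        = u (perRho hPH hNS (CuspForm.heckeAlgebra.T (Fact.out : ℓ.Prime) hℓN hℓS)
            (perCls N γ)) := by
      rw [perRho_perCls hPH hNS (Fact.out : ℓ.Prime) hℓN hℓS γ, map_multiset_sum,
        Multiset.map_map]
      have h2 := sum_map_facCoh N ℓ (fun δ => u (perCls N δ)) γ
      rw [M4aTop_heckeCoh_eq_sum_trf hℓN] at h2
      rw [show ((facCoh N ℓ γ).map (⇑u ∘ perCls N)).sum
          = ((facCoh N ℓ γ).map fun δ => u (perCls N δ)).sum from rfl, h2]
      refine Finset.sum_congr rfl fun pt _ => ?_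
      rw [hx, h581_hElt_eq_trf]
    rw [h1]
    have h3 := hsemi (CuspForm.heckeAlgebra.T (Fact.out : ℓ.Prime) hℓN hℓS) (perCls N γ)
    have h4 : residue 𝒪 (u (perRho hPH hNS (CuspForm.heckeAlgebra.T (Fact.out : ℓ.Prime) hℓN hℓS)
        (perCls N γ))) = ub (perRho hPH hNS (CuspForm.heckeAlgebra.T (Fact.out : ℓ.Prime) hℓN hℓS)
        (perCls N γ)) := rfl
    have h5 : residue 𝒪 (x (Additive.ofMul γ)) = ub (perCls N γ) := rfl
    rw [h4, h3, h5, sub_self]

end Occ

/-! ## The leaf -/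

/-- **NONTRIV** (leaf of `TW/Aut/Spec.lean`). -/
theorem nontriv : NontrivStatement := by
  intro p _ 𝒪 _ _ _ _ _ _ ρbar Smin h t _ hN P₀ V₀ hV₀
  classical
  have hNS : ∀ q : ℕ, q.Prime → q ∣ wilesLevel p t Smin Smin → q ∈ (↑Smin : Set ℕ) :=
    fun q hq hdvd => h581_mem_of_dvd_wilesLevel h.hpSmin h.hSmin hq hdvd
  obtain ⟨x, hx0, hxe⟩ := h581_exists_occ hNS P₀.θ
  obtain ⟨e, -, he_mem, -, -, -, -, hfull⟩ := hV₀.exists_proj
  have hex : e x ≠ 0 := by
    intro h0
    apply hx0
    refine hfull x h0 ?_ ?_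
    · intro ℓ _ c hc
      obtain ⟨hℓ, hℓN, hℓS, hres⟩ := hc
      rw [TK_Gamma0 hℓN]
      exact hxe ℓ hℓN hℓS c hres
    · intro q _ α hα
      exact absurd hα (Set.notMem_empty _)
  exact nontrivial_of_ne (⟨e x, he_mem x⟩ : V₀) 0 fun h0 => hex (congrArg Subtype.val h0)

end Fermat.Agent.S59.TW.Aut.H581
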